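import Fermat.Agent.S56.W2.EC.Brauer.Defs
import Fermat.Agent.S56.W2.EC.Brauer.ArtinId

/-!
S56, wall W2-EC, leaf (B3) (helper71): orbit counts of a cyclic group and fixed points of powers.
-/

set_option autoImplicit false
set_option linter.style.haveILetI false

namespace Fermat.Agent.S56.EC

open Finset
open scoped Classical

section Orb

variable {G X : Type} [Group G] [MulAction G X] [Finite X]

/-- The size of the `⟨γ⟩`-orbit of `x` is the minimal period of `x` under `γ`. -/
theorem orb_card_orbit (γ : G) (x : X) :
    Nat.card (MulAction.orbit (Subgroup.zpowers γ) x)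
      = Function.minimalPeriod (fun y => γ • y) x := by
  haveI : Fintype (MulAction.orbit (Subgroup.zpowers γ) x) := Fintype.ofFinite _
  rw [Nat.card_eq_fintype_card, ← MulAction.minimalPeriod_eq_card]

/-- `γ ^ j` fixes `x` iff the size of the `⟨γ⟩`-orbit of `x` divides `j`. -/
theorem orb_pow_smul_eq_iff (γ : G) (x : X) (j : ℕ) :
    γ ^ j • x = x ↔
      Nat.card (MulAction.orbitRel.Quotient.orbit
        (Quotient.mk'' x : MulAction.orbitRel.Quotient (Subgroup.zpowers γ) X)) ∣ j := by
  rw [MulAction.orbitRel.Quotient.orbit_mk, orb_card_orbit,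
    MulAction.pow_smul_eq_iff_minimalPeriod_dvd]

/-- The number of fixed points of `γ ^ j` is `∑_{r ∣ j} r · #{orbits of ⟨γ⟩ of size r}`. -/
theorem orb_card_fixed_pow (γ : G) {j : ℕ} (hj : j ≠ 0) :
    Nat.card {x : X // γ ^ j • x = x}
      = ∑ r ∈ j.divisors, r * Nat.card {ω : MulAction.orbitRel.Quotient (Subgroup.zpowers γ) X //
          Nat.card ω.orbit = r} := by
  haveI : Fintype X := Fintype.ofFinite X
  haveI : Fintype (MulAction.orbitRel.Quotient (Subgroup.zpowers γ) X) := Fintype.ofFinite _
  set c : MulAction.orbitRel.Quotient (Subgroup.zpowers γ) X → ℕ :=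
    fun ω => Nat.card (MulAction.orbitRel.Quotient.orbit ω) with hc
  -- step 1: fibre the fixed points over the orbits
  have h1 : Nat.card {x : X // γ ^ j • x = x}
      = ∑ ω : MulAction.orbitRel.Quotient (Subgroup.zpowers γ) X, if c ω ∣ j then c ω else 0 := by
    rw [Nat.card_eq_fintype_card, Fintype.card_subtype]
    rw [Finset.card_eq_sum_card_fiberwise
      (f := fun x : X => (Quotient.mk'' x : MulAction.orbitRel.Quotient (Subgroup.zpowers γ) X))
      (t := Finset.univ) (fun _ _ => Finset.mem_coe.2 (Finset.mem_univ _))]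
    refine Finset.sum_congr rfl fun ω _ => ?_
    by_cases hω : c ω ∣ j
    · rw [if_pos hω]
      have : (Finset.univ.filter fun x : X => γ ^ j • x = x).filter
          (fun x => (Quotient.mk'' x : MulAction.orbitRel.Quotient (Subgroup.zpowers γ) X) = ω)
          = Finset.univ.filter fun x : X => x ∈ MulAction.orbitRel.Quotient.orbit ω := by
        ext x
        simp only [Finset.mem_filter, Finset.mem_univ, true_and,
          MulAction.orbitRel.Quotient.mem_orbit]
        constructor
        · exact fun h => h.2
        · intro h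
          refine ⟨?_, h⟩
          rw [orb_pow_smul_eq_iff, h]
          exact hω
      rw [this, hc]
      show _ = Nat.card (MulAction.orbitRel.Quotient.orbit ω)
      rw [Nat.card_eq_fintype_card, Fintype.card_subtype]
    · rw [if_neg hω]
      rw [Finset.card_eq_zero, Finset.filter_eq_empty_iff]
      intro x hx hxω
      rw [Finset.mem_filter] at hx
      apply hω
      have := (orb_pow_smul_eq_iff γ x j).1 hx.2
      rwa [hxω] at this
  -- step 2: regroup by the size of the orbit
  rw [h1]
  have h2 : ∀ ω : MulAction.orbitRel.Quotient (Subgroup.zpowers γ) X,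
      (if c ω ∣ j then c ω else 0) = ∑ r ∈ j.divisors, if c ω = r then r else 0 := by
    intro ω
    rw [Finset.sum_ite_eq]
    by_cases hω : c ω ∣ j
    · rw [if_pos hω, if_pos (Nat.mem_divisors.2 ⟨hω, hj⟩)]
    · rw [if_neg hω, if_neg]
      exact fun h => hω (Nat.mem_divisors.1 h).1
  rw [Finset.sum_congr rfl fun ω _ => h2 ω, Finset.sum_comm]
  refine Finset.sum_congr rfl fun r _ => ?_
  rw [← Finset.sum_filter, Finset.sum_const, smul_eq_mul, mul_comm, Nat.card_eq_fintype_card,
    Fintype.card_subtype]

end Orb

end Fermat.Agent.S56.EC
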